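import Fermat.Agent.S19.H.RegRep
import Fermat.Agent.S19.I.Export
import Fermat.Agent.S19.W.Main

/-!
# S19 / Top : the formal assembly

Abstract data `(F, gal, v, s, ∞, S₀, 𝔞, g₀)`  ⟹  (REP) for `Pic⁰(F)[n]`, through (H3) with
`Ω = {(x, a) | x : Fin g₀ → S₀, a ∈ 𝔞, n [∑ (x_j - ∞)] = 0}` and `χ_Q(ω) = e_n(P_ω, Q)`.
-/

set_option autoImplicit false
set_option linter.style.haveILetI false

noncomputable section

namespace Fermat.Agent.S19.Top

open AlgebraicCurve Fermat.Agent.S24.FF Fermat.Agent.S27 Fermat.Agent.GAL.FF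
  Fermat.Agent.S19.R Fermat.Agent.S19.W Fermat.Agent.S19.I

section tup

variable {K F : Type*} [Field K] [Field F] [Algebra K F]

theorem smul_single (g : SemilinearAut K F) (y : Place K F) (c : ℤ) :
    g • (Finsupp.single y c : Divisor K F) = Finsupp.single (g • y) c := by
  classical
  ext w
  rw [SemilinearAut.divisor_smul_apply, Finsupp.single_apply, Finsupp.single_apply]
  by_cases h : y = g⁻¹ • w
  · rw [if_pos h, if_pos (by rw [h, smul_inv_smul])]
  · rw [if_neg h, if_neg (fun h' => h (by rw [← h', inv_smul_smul]))]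

theorem smul_divisor_add (g : SemilinearAut K F) (D E : Divisor K F) :
    g • (D + E) = g • D + g • E := by
  ext w
  simp only [SemilinearAut.divisor_smul_apply, Finsupp.add_apply]

theorem smul_divisor_sub (g : SemilinearAut K F) (D E : Divisor K F) :
    g • (D - E) = g • D - g • E := by
  ext w
  simp only [SemilinearAut.divisor_smul_apply, Finsupp.sub_apply]

theorem smul_sumPts (g : SemilinearAut K F) {m : ℕ} (x : Fin m → Place K F) :
    g • sumPts x = sumPts (fun j => g • x j) := by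
  classical
  ext w
  rw [SemilinearAut.divisor_smul_apply]
  unfold sumPts
  rw [Finsupp.finsetSum_apply, Finsupp.finsetSum_apply]
  refine Finset.sum_congr rfl fun j _ => ?_
  rw [← smul_single, SemilinearAut.divisor_smul_apply]

end tup

variable {F : Type} {Γ₀ : Type*} [Field F] [Algebra Qb F] [IsFF1 Qb F]
  [LinearOrderedCommGroupWithZero Γ₀]

omit [IsFF1 Qb F] in
theorem smul_tupDiv (g : SemilinearAut Qb F) {m : ℕ} (x : Fin m → Place Qb F) (oo : Place Qb F) :
    g • tupDiv x oo = tupDiv (fun j => g • x j) (g • oo) := by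
  unfold tupDiv
  rw [smul_divisor_sub, smul_sumPts, smul_single]

theorem degree_tupDiv {m : ℕ} (x : Fin m → Place Qb F) (oo : Place Qb F) :
    Divisor.degree (tupDiv x oo) = 0 := by
  unfold tupDiv
  rw [map_sub, degree_sumPts, Divisor.degree_single, deg_eq_one]
  simp

omit [IsFF1 Qb F] in
theorem tupDiv_apply_ne {m : ℕ} {x : Fin m → Place Qb F} {oo y : Place Qb F}
    (h : tupDiv x oo y ≠ 0) : y = oo ∨ ∃ j, y = x j := by
  classical
  by_contra hc
  rw [not_or, not_exists] at hc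
  apply h
  unfold tupDiv
  rw [Finsupp.sub_apply, Finsupp.single_apply, if_neg (fun h' => hc.1 h'.symm), sub_zero]
  exact sumPts_apply_of_notMem x (fun j hj => hc.2 j hj.symm)

omit [IsFF1 Qb F] in
theorem not_good_of_bad {v : Valuation F Γ₀} {s : F} {y : Place Qb F} (hB : Bad v s y) :
    ¬ Good v s y := by
  rintro ⟨-, h1, h2⟩
  rcases hB.2 with h | h
  · exact h.ne h1
  · exact h.ne h2

omit [IsFF1 Qb F] in
/-- a divisor of degree `0` whose class is killed by `n`. -/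
theorem exists_isRep_of_cls {n : ℕ} {D : Divisor Qb F} (hD : Divisor.degree D = 0)
    (h : n • cls D = 0) : ∃ u : F, IsRep n (cls D) D u := by
  have h1 : Divisor.degree (n • D) = 0 := by rw [map_nsmul, hD, smul_zero]
  rw [← cls_nsmul hD, cls_eq_zero_iff h1] at h
  obtain ⟨u, hu, hord⟩ := h
  refine ⟨u, hD, rfl, hu, fun y => ?_⟩
  rw [← hord, Finsupp.smul_apply, nsmul_eq_mul]

/-- **the formal assembly.** -/
theorem hasRep_of_data {ℓ : ℕ} [Fact ℓ.Prime] {A : ValuationSubring Qb} (hA : A.LiesOverPrime ℓ)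
    {v : Valuation F Γ₀} {gal : GQ →* SemilinearAut Qb F}
    (hS : Setting A v gal) {s : F} (hs : Chart Qb v s) (hsr : ∀ σ : GQ, gal σ • s = s)
    (hRB : RB A v gal s) {n : ℕ} (hn : 0 < n) (m : ℤ) (hm : m = n)
    [Finite (Submodule.torsionBy ℤ (Pic0 Qb F) m)]
    (oo : Place Qb F) (hoo : ∀ σ : GQ, gal σ • oo = oo) (hooB : Bad v s oo)
    (S0 : Finset (Place Qb F)) (hS0 : ∀ (σ : GQ), ∀ y ∈ S0, gal σ • y ∈ S0)
    (hS0B : ∀ y ∈ S0, Bad v s y) (g₀ : ℕ)
    (hg : ∀ P : Pic0 Qb F, n • P = 0 →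
      ∃ x : Fin g₀ → Place Qb F, (∀ j, x j ∈ S0) ∧ cls (tupDiv x oo) = P)
    (aa : Finset (Place Qb F)) (haa : ∀ (σ : GQ), ∀ y ∈ aa, gal σ • y ∈ aa)
    (haaG : ∀ y ∈ aa, Good v s y) (hne : aa.Nonempty)
    (hmove : ∀ D : Divisor Qb F, ∃ f : F, f ≠ 0 ∧
      ∀ y : Place Qb F, (D + divOf Qb f) y ≠ 0 → Good v s y)
    (act' : GQ → Submodule.torsionBy ℤ (Pic0 Qb F) m → Submodule.torsionBy ℤ (Pic0 Qb F) m)
    (hact' : ∀ σ Q, ((act' σ Q : Submodule.torsionBy ℤ (Pic0 Qb F) m) : Pic0 Qb F) = gal σ • Q.1) :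
    HasRep A (Submodule.torsionBy ℤ (Pic0 Qb F) m) act' := by
  classical
  subst hm
  have htor : ∀ Q : Submodule.torsionBy ℤ (Pic0 Qb F) (n : ℤ), n • (Q : Pic0 Qb F) = 0 := by
    intro Q
    have := (Submodule.mem_torsionBy_iff _ _).1 Q.2
    rwa [natCast_zsmul] at this
  -- the `G`-set `Ω`
  let Ω : Type := {ω : (Fin g₀ → S0) × aa // n • cls (tupDiv (fun j => (ω.1 j).1) oo) = 0}
  let x : Ω → Fin g₀ → Place Qb F := fun ω j => (ω.1.1 j).1
  let a : Ω → Place Qb F := fun ω => ω.1.2.1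
  let PP : Ω → Pic0 Qb F := fun ω => cls (tupDiv (x ω) oo)
  have hPP : ∀ ω, n • PP ω = 0 := fun ω => ω.2
  have hsm : ∀ (σ : GQ) (y : Fin g₀ → Place Qb F),
      cls (tupDiv (fun j => gal σ • y j) oo) = gal σ • cls (tupDiv y oo) := by
    intro σ y
    rw [← cls_semi, smul_tupDiv, hoo]
  have hnsm : ∀ (σ : GQ) (P : Pic0 Qb F), n • P = 0 → n • (gal σ • P) = 0 := by
    intro σ P hP
    have h1 := SemilinearAut.smul_zsmul (gal σ) (n : ℤ) P
    rw [natCast_zsmul, natCast_zsmul, hP] at h1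
    exact h1.symm.trans (smul_zero (A := Pic0 Qb F) (gal σ))
  let act : GQ → Ω → Ω := fun σ ω =>
    ⟨(fun j => ⟨gal σ • x ω j, hS0 σ _ (ω.1.1 j).2⟩, ⟨gal σ • a ω, haa σ _ ω.1.2.2⟩), by
      show n • cls (tupDiv (fun j => gal σ • x ω j) oo) = 0
      rw [hsm]
      exact hnsm σ _ ω.2⟩
  have hxact : ∀ σ ω j, x (act σ ω) j = gal σ • x ω j := fun σ ω j => rfl
  have haact : ∀ σ ω, a (act σ ω) = gal σ • a ω := fun σ ω => rfl
  have hPact : ∀ σ ω, PP (act σ ω) = gal σ • PP ω := fun σ ω => hsm σ (x ω)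
  have hbij : ∀ σ, Function.Bijective (act σ) := by
    intro σ
    apply Finite.injective_iff_bijective.mp
    intro ω ω' h
    apply Subtype.ext
    apply Prod.ext
    · funext j
      apply Subtype.ext
      have h1 : x (act σ ω) j = x (act σ ω') j := by rw [h]
      rw [hxact, hxact] at h1
      exact smul_left_cancel _ h1
    · apply Subtype.ext
      have h1 : a (act σ ω) = a (act σ ω') := by rw [h]
      rw [haact, haact] at h1
      exact smul_left_cancel _ h1
  have hsurj : ∀ P : Pic0 Qb F, n • P = 0 → ∃ ω, PP ω = P := by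
    intro P hP
    obtain ⟨y, hy, hyP⟩ := hg P hP
    obtain ⟨a0, ha0⟩ := hne
    exact ⟨⟨(fun j => ⟨y j, hy j⟩, ⟨a0, ha0⟩), by
      show n • cls (tupDiv y oo) = 0
      rw [hyP, hP]⟩, hyP⟩
  -- the characters
  let χ : Submodule.torsionBy ℤ (Pic0 Qb F) (n : ℤ) → Ω → Qb := fun Q ω => eW n (PP ω) Q.1
  refine H.hasRep_of_char A hA act hbij act' χ ?_ ?_ ?_ ?_ ?_
  · funext ω
    exact eW_zero_right hn _
  · intro Q Q'
    funext ω
    exact eW_add_right hn (hPP ω) (htor Q) (htor Q')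
  · intro Q Q' hQQ
    by_contra hne'
    have hR0 : ((Q - Q' : Submodule.torsionBy ℤ (Pic0 Qb F) (n : ℤ)) : Pic0 Qb F) ≠ 0 := by
      intro h0
      exact hne' (sub_eq_zero.mp (Subtype.ext h0))
    obtain ⟨P, hP, hPne⟩ := eW_nondeg hn (htor (Q - Q')) hR0
    obtain ⟨ω, rfl⟩ := hsurj P hP
    apply hPne
    have h1 := eW_add_right hn (hPP ω) (htor (Q - Q')) (htor Q')
    have h2 : ((Q - Q' : Submodule.torsionBy ℤ (Pic0 Qb F) (n : ℤ)) : Pic0 Qb F) + Q'.1 = Q.1 := by
      simp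
    rw [h2] at h1
    have h3 : eW n (PP ω) Q.1 = eW n (PP ω) Q'.1 := congrFun hQQ ω
    rw [h3] at h1
    exact (mul_eq_right₀ (eW_ne_zero n _ _)).mp h1.symm
  · intro σ Q ω
    show eW n (PP (act σ ω)) (act' σ Q).1 = σ (eW n (PP ω) Q.1)
    rw [hPact, hact', eW_semi hn, hS.base]
  · intro Q
    obtain ⟨D0, hD0, hcls⟩ := cls_surjective (Q : Pic0 Qb F)
    obtain ⟨f, hf, hgood⟩ := hmove D0
    set E : Divisor Qb F := D0 + divOf Qb f with hE
    have hdegf : Divisor.degree (divOf Qb f) = 0 := degree_divOf f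
    have hdegE : Divisor.degree E = 0 := by rw [hE, map_add, hD0, hdegf, add_zero]
    have hclsf : cls (divOf Qb f) = 0 :=
      (cls_eq_zero_iff hdegf).2 ⟨f, hf, fun y => divOf_apply f y⟩
    have hclsE : cls E = Q.1 := by rw [hE, cls_add hD0 hdegf, hcls, hclsf, add_zero]
    obtain ⟨w, hw⟩ := exists_isRep_of_cls hdegE (by rw [hclsE]; exact htor Q)
    rw [hclsE] at hw
    have hu : ∀ ω, ∃ u : F, IsRep n (PP ω) (tupDiv (x ω) oo) u := fun ω =>
      exists_isRep_of_cls (degree_tupDiv _ _) (hPP ω)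
    choose u hu using hu
    have hxB : ∀ ω j, Bad v s (x ω j) := fun ω j => hS0B _ (ω.1.1 j).2
    have hdisj : ∀ ω, DisjD (tupDiv (x ω) oo) E := by
      intro ω y
      by_cases h1 : tupDiv (x ω) oo y = 0
      · exact Or.inl h1
      right
      by_contra h2
      have hG := hgood y h2
      rcases tupDiv_apply_ne h1 with rfl | ⟨j, rfl⟩
      · exact not_good_of_bad hooB hG
      · exact not_good_of_bad (hxB ω j) hG
    have hχ : χ Q = fun ω => evD (u ω) E / evD w (tupDiv (x ω) oo) := by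
      funext ω
      exact eW_eq hn (hu ω) hw (hdisj ω)
    rw [hχ]
    exact integrality hS hs hsr hRB hn act x hxact oo hoo a haact hxB hooB
      (fun ω => haaG _ ω.1.2.2) u (fun ω => (hu ω).ne) (fun ω y => (hu ω).ord y) E hgood w hw.ne
      hw.ord

end Fermat.Agent.S19.Top
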