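import Fermat.Agent.S19.Top.Abstract
import Fermat.Agent.S19.Chain
import Fermat.Agent.S19.R.Export
import Fermat.Agent.S19.B.Export
import Fermat.Agent.S19.E.Stable
import Fermat.Agent.S19.E.Tuple
import Fermat.Agent.S19.E.Bad
import Fermat.Agent.S19.E.Good
import Fermat.Agent.S19.E.Cusp
import Fermat.Agent.GAL.KLC.Main

/-!
# S19 / Top : the concrete instantiation `F = FL ℚ̄ M`, `v = vG A M`  ⟹  `AdmRepContract`
-/

set_option autoImplicit false
set_option linter.style.haveILetI false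

noncomputable section

namespace Fermat.Agent.S19.Top

open AlgebraicCurve ModularCurve Polynomial Fermat.Agent.S24.FF Fermat.Agent.S27 Fermat.Agent.GAL
  Fermat.Agent.GAL.KL Fermat.Agent.GAL.KLC Fermat.Agent.GAL.KLB Fermat.Agent.GAL.FF
  Fermat.Agent.S19.R Fermat.Agent.S19.W Fermat.Agent.S19.I Fermat.Agent.S19.B Fermat.Agent.S19.E
open Fermat.Agent.S32 (torAct RepContract)

/-- (E5) the graded lifting property at an admissible level (good reduction). -/
theorem liftLL (M ℓ : ℕ) [NeZero M] (hM : AdmLevel M) (hℓ : ℓ.Prime) (hℓM : ¬ ℓ ∣ M)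
    (A : ValuationSubring Qb) (hA : A.LiesOverPrime ℓ) :
    LiftLL (isRed A M) ⟨xF M, xF_mem_integer M A⟩ := by
  have : CharP (kA A) ℓ := Fermat.Agent.GR.charP_residueField hℓ hA
  obtain ⟨fZ, hfc, hf0, hfi⟩ := exists_cusp_basis M ℓ hℓ (kA A)
  have hCT := ctStatement M ℓ hM hℓ hℓM A hA
  obtain ⟨a₀, ha₀⟩ := KLB.exists_redW_LL_eq (isRed A M) (xF_mem_integer M A)
    (xF'_mem_integer M A) (mX_pos M)
    (order_rho_xF M A) (order_rho_xF' M A) (spansStatement M) (riStatement M)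
    (fun j => psR (kA A) (fZ j)) hfi (fun j => order_psR_pos _ (hf0 j) (hfi.ne_zero j))
    (fun z hz j => hCT _ (z : FL Qb M).2 _ (hasRed_rho A M z)
      (by rw [rho_xF] at hz; exact hz) _ (hfc j))
  exact ⟨a₀, fun a ha => (ha₀ a ha).1⟩

theorem transcendental_of_chart {K F Γ₀ : Type*} [Field K] [Field F] [Algebra K F]
    [LinearOrderedCommGroupWithZero Γ₀] {v : Valuation F Γ₀} {s : F} (hs : Chart K v s) :
    Transcendental K s := by
  rw [transcendental_iff]
  exact fun p hp => hs.gauss.inj p hp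

/-- **(REP) at admissible levels.** -/
theorem admRepContract : AdmRepContract := by
  intro M ℓ _ hM hℓ hℓM A hA k
  haveI : Fact ℓ.Prime := ⟨hℓ⟩
  have hn : 0 < ℓ ^ k := pow_pos hℓ.pos k
  have hS := setting M A
  haveI hfin : Finite (Submodule.torsionBy ℤ (JZero M) ((ℓ : ℤ) ^ k)) :=
    L.finite_torsionBy M (ℓ ^ k) hn _ (by push_cast; rfl)
  obtain ⟨oo, hoo, -⟩ := exists_cusp M
  -- the tuples
  have hT : {P : Pic0 Qb (FL Qb M) | (ℓ ^ k) • P = 0}.Finite := by
    have h1 : {P : Pic0 Qb (FL Qb M) | (ℓ ^ k) • P = 0} =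
        ((Submodule.torsionBy ℤ (JZero M) ((ℓ : ℤ) ^ k) : Submodule ℤ (JZero M)) : Set (JZero M)) := by
      ext P
      rw [Set.mem_ofPred_eq, SetLike.mem_coe, Submodule.mem_torsionBy_iff, ← natCast_zsmul]
      push_cast
      rfl
    rw [h1]
    exact Set.toFinite _
  obtain ⟨g₀, hg₀⟩ := exists_tuple_uniform oo _ hT
  haveI : Nonempty (Fin g₀ → Place Qb (FL Qb M)) := ⟨fun _ => oo⟩
  choose! xx hxx using hg₀
  classical
  obtain ⟨S0, hSS0, hS0st⟩ := exists_stable_finset (galM M) hS.base (xF M) (transcendental_xF M)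
    (fun σ => by
      have h := galM_smul_sM M (X : ℤ[X]) σ
      unfold sM at h
      simp only [Polynomial.map_X, aeval_X] at h
      rw [smul_inv''] at h
      exact inv_injective h)
    (insert oo (hT.toFinset.biUnion fun P => Finset.univ.image (xx P)))
  obtain ⟨r, hr, hbad⟩ := exists_bad_chart hℓ hA hS.vA (xF M) S0
  have hmon : (mPol ℓ r).Monic := mPol_monic hℓ.one_lt hr
  have hdeg : 0 < (mPol ℓ r).natDegree := by
    rw [mPol_natDegree hℓ.one_lt hr]
    exact pow_pos hℓ.pos r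
  set q : Qb[X] := (mPol ℓ r).map (Int.castRingHom Qb) with hq
  have hqmon : q.Monic := hmon.map _
  have hqdeg : 0 < q.natDegree := by rw [hq, hmon.natDegree_map]; exact hdeg
  have hqA : ∀ i, vK (vG A M) (q.coeff i) ≤ 1 := by
    intro i
    rw [vK_apply, hS.vA, hq, coeff_map]
    exact intCast_mem A _
  have hs : Chart Qb (vG A M) (sM M (mPol ℓ r)) :=
    chart_inv_aeval (chart_xF M A) q hqdeg hqA (by rw [hqmon.leadingCoeff, map_one])
  obtain ⟨aa, haane, haast, haaG⟩ := exists_good_places (v := vG A M) (galM M) (sM M (mPol ℓ r))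
    (transcendental_of_chart hs) (galM_smul_sM M _)
  obtain ⟨c, hc, hc1⟩ := exists_golden (vG A M)
  refine hasRep_of_data hA hS hs (galM_smul_sM M _) (rb M A hℓ hA _ hmon hdeg) hn _
    (by push_cast; rfl) oo hoo (hbad oo (hSS0 (Finset.mem_insert_self _ _))) S0 hS0st hbad g₀ ?_
    aa haast haaG haane ?_ (torAct M ((ℓ : ℤ) ^ k)) (fun σ Q => rfl)
  · intro P hP
    refine ⟨xx P, fun j => hSS0 (Finset.mem_insert_of_mem ?_), hxx P hP⟩
    exact Finset.mem_biUnion.mpr ⟨P, hT.mem_toFinset.mpr hP,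
      Finset.mem_image_of_mem _ (Finset.mem_univ j)⟩
  · intro D
    exact exists_good_repr (isRed A M) ⟨xF M, xF_mem_integer M A⟩ (chart_xF M A)
      (liftLL M ℓ hM hℓ hℓM A hA) q hqmon hqdeg hqA c hc hc1 D

end Fermat.Agent.S19.Top
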